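import Fermat.Agent.CAR.KLm.Basic
import Fermat.Agent.GAL.KL.Lattice

/-!
# CAR / FG-3 : the unit ball of the chart ring lies in a finitely generated `O[u]`-module
-/

set_option autoImplicit false

namespace Fermat.Agent.CAR.FG

open Polynomial Fermat.Agent.GAL Fermat.Agent.GAL.KL Fermat.Agent.CAR.KLm

variable {L E Γ₀ ι : Type*} [Field L] [Field E] [Algebra L E] [LinearOrderedCommGroupWithZero Γ₀]
  [Fintype ι] [Nonempty ι]

/-- `β'` an `L(u)`-basis of `E` which is "bounded below" for the sup norm (`NB`; e.g. an orthogonal basis).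
PROOF. `hinj := (S.G o).inj`.  `β'` is independent over `L[u]`: `comb = 0` ⇒ `v o (p l (u)) * γ ≤ 0` ⇒ `p l (u) = 0` ⇒ `p l = 0`.
`exists_basis_BB hinj β' _ hs` gives an `L[u]`-basis `b` of `BB L u`; `hs.latA_common b` gives `D₀ ≠ 0`, `A` with
`D₀(u) b m = comb (A m) β'`.  For `z = comb p b ∈ BB`: `D₀(u) z = comb P' β'`, `P' l = ∑ m, p m * A m l` (`comb_comb`).
If `NN v z ≤ 1` then `NN v (D₀(u) z) = v o (D₀(u)) * NN v z ≤ γ₁ := v o (D₀(u))` (`S.NN_aeval_mul`), so by `NB`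
`v o (P' l (u)) * γ ≤ γ₁`.  By `hA` choose `N` with `v o ϖ ^ N * γ₁ ≤ γ` (apply `hA` to `γ / γ₁`, `γ₁ ≠ 0`).
`P l := C (ϖ^N) * P' l`: `v o (P l (u)) ≤ 1`, so all coefficients are `≤ 1` (`S.G o`).  `ε l := β' l / (ϖ^N D₀(u))`. -/
theorem exists_bound [CharZero L] {v : ι → Valuation E Γ₀} {u : E} (S : Setup L v u) (o : ι)
    (hA : Arch (v o)) {d : ℕ} (β' : Fin d → E) (hs : Spans L u β')
    (NB : ∃ γ : Γ₀, γ ≠ 0 ∧ ∀ (p : Fin d → L[X]) (l : Fin d),
      v o (aeval u (p l)) * γ ≤ NN v (comb L u p β'))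
    {ϖ : L} (hϖ0 : ϖ ≠ 0) (hϖ1 : v o (algebraMap L E ϖ) < 1) :
    ∃ ε : Fin d → E, ∀ z : E, IsInt L u z → (∀ i, v i z ≤ 1) →
      ∃ P : Fin d → L[X], (∀ l a, v o (algebraMap L E ((P l).coeff a)) ≤ 1) ∧ z = comb L u P ε := by
  obtain ⟨γ, hγ, NB⟩ := NB
  have hinj : ∀ p : L[X], aeval u p = 0 → p = 0 := (S.G o).inj
  have hind : ∀ p : Fin d → L[X], comb L u p β' = 0 → p = 0 := by
    intro p hp
    funext l
    have h1 := NB p l
    rw [hp, NN_zero, le_zero_iff, mul_eq_zero] at h1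
    rcases h1 with h1 | h1
    · exact hinj _ ((map_eq_zero (v o)).1 h1)
    · exact absurd h1 hγ
  obtain ⟨b, hb⟩ := exists_basis_BB hinj β' hind hs
  obtain ⟨D₀, Am, hD0, hAm⟩ := hs.latA_common b
  have hD0u : aeval u D₀ ≠ 0 := fun h => hD0 (hinj _ h)
  set γ₁ : Γ₀ := v o (aeval u D₀) with hγ₁
  have hγ₁0 : γ₁ ≠ 0 := (Valuation.ne_zero_iff (v o)).2 hD0u
  obtain ⟨N, hN⟩ := hA (algebraMap L E ϖ) hϖ1 (γ / γ₁) (div_ne_zero hγ hγ₁0)
  have hN' : v o (algebraMap L E ϖ) ^ N * γ₁ ≤ γ := by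
    have := (lt_div_iff₀ (zero_lt_iff.2 hγ₁0)).1 hN
    exact this.le
  have hϖE : algebraMap L E ϖ ≠ 0 := by
    rwa [Ne, map_eq_zero_iff _ (algebraMap L E).injective]
  refine ⟨fun l => β' l / (algebraMap L E ϖ ^ N * aeval u D₀), fun z hz hz1 => ?_⟩
  obtain ⟨p, hp⟩ := (hb.2 z).1 hz
  have hDz : aeval u D₀ * z = comb L u (Matrix.vecMul p (Matrix.of Am)) β' := by
    rw [hp, ← latA_comb_mul_right, ← comb_comb]
    congr 1
    funext i
    exact hAm i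
  set P' : Fin d → L[X] := Matrix.vecMul p (Matrix.of Am) with hP'
  have hNN : NN v (aeval u D₀ * z) ≤ γ₁ := by
    rw [S.NN_aeval_mul o]
    calc v o (aeval u D₀) * NN v z ≤ v o (aeval u D₀) * 1 :=
          mul_le_mul' le_rfl (NN_le_iff.2 hz1)
      _ = γ₁ := by rw [mul_one]
  have hbd : ∀ l, v o (aeval u (P' l)) * γ ≤ γ₁ := fun l => by
    have := NB P' l
    rw [← hDz] at this
    exact this.trans hNN
  refine ⟨fun l => C (ϖ ^ N) * P' l, fun l a => ?_, ?_⟩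
  · refine (S.G o (C (ϖ ^ N) * P' l) 1).1 ?_ a
    rw [map_mul, aeval_C, map_mul, map_pow, map_pow]
    have h1 : v o (algebraMap L E ϖ) ^ N * v o (aeval u (P' l)) * γ ≤ 1 * γ := by
      rw [mul_assoc, one_mul]
      exact (mul_le_mul' le_rfl (hbd l)).trans hN'
    exact le_of_mul_le_mul_right h1 (zero_lt_iff.2 hγ)
  · have h2 : comb L u (fun l => C (ϖ ^ N) * P' l)
        (fun l => β' l / (algebraMap L E ϖ ^ N * aeval u D₀))
        = (aeval u D₀)⁻¹ * comb L u P' β' := by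
      simp only [comb, Finset.mul_sum]
      refine Finset.sum_congr rfl fun l _ => ?_
      rw [map_mul, aeval_C, map_pow]
      field_simp
    rw [h2, ← hDz, ← mul_assoc, inv_mul_cancel₀ hD0u, one_mul]

end Fermat.Agent.CAR.FG
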