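import Fermat.Agent.CAR.FG.Noeth
import Fermat.Agent.CAR.BK.Defs

/-!
# CAR / FG-6,7 : from `(K, F)` (`K = ℚ̄`) to `(L, E)` (`L = ℚ̄^I`, `E = F^I`) : integrality, spanning, norm bound;
the chart ring `BK.Bu K E v u` is noetherian and `NS.Lam (BK.Bu K E v u) n w` is finitely generated.

The only input about the descent is `B2 L K E`: a linear relation with coefficients in `K` between elements of `E` can be
replaced by one with coefficients in `L`  (`= DESC.exists_fixed_coeffs`).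
-/

set_option autoImplicit false

namespace Fermat.Agent.CAR.FG

open Polynomial Fermat.Agent.GAL Fermat.Agent.GAL.KL Fermat.Agent.CAR.KLm Fermat.Agent.CAR.ON

variable (L K : Type*) {F Γ₀ I : Type*} [Field L] [Field K] [Field F] [Algebra K F] [Algebra L K]
  [LinearOrderedCommGroupWithZero Γ₀] (E : Subfield F) [Algebra L E]

/-- the two structure maps `L → E → F` and `L → K → F` agree. -/
def Compat : Prop := ∀ a : L, ((algebraMap L E a : E) : F) = algebraMap K F (algebraMap L K a)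

/-- descent of linear relations. -/
def B2 : Prop := ∀ (r : ℕ) (m : Fin r → E) (y : E) (c : Fin r → K),
  (y : F) = ∑ k, algebraMap K F (c k) * (m k : F) → ∃ c' : Fin r → L, y = ∑ k, algebraMap L E (c' k) * m k

variable {L K E}

/-- for `p : L[X]`: `aeval u p`, computed in `E`, is `aeval u (p.map _)` computed in `F`. -/
theorem coe_aeval (hc : Compat L K E) (u : E) (p : L[X]) :
    ((aeval u p : E) : F) = aeval (u : F) (p.map (algebraMap L K)) := by
  induction p using Polynomial.induction_on' with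
  | add p q hp hq => rw [map_add, Polynomial.map_add, map_add, ← hp, ← hq]; rfl
  | monomial n a =>
    rw [aeval_monomial, map_monomial, aeval_monomial, ← hc a]
    rfl

/-- the two ring homomorphisms `L[X] → F` agree. -/
theorem desc_comp_eq (hc : Compat L K E) (u : E) :
    E.subtype.comp ((aeval u : L[X] →ₐ[L] E) : L[X] →+* E) =
      ((aeval (u : F) : K[X] →ₐ[K] F) : K[X] →+* F).comp (mapRingHom (algebraMap L K)) :=
  RingHom.ext fun p => coe_aeval hc u p

/-- `B2` for an arbitrary finite index type. -/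
theorem desc_B2 (h2 : B2 L K E) {ι : Type*} [Fintype ι] (m : ι → E) (y : E) (c : ι → K)
    (h : (y : F) = ∑ k, algebraMap K F (c k) * (m k : F)) :
    ∃ c' : ι → L, y = ∑ k, algebraMap L E (c' k) * m k := by
  classical
  let e := Fintype.equivFin ι
  obtain ⟨c', hc'⟩ := h2 (Fintype.card ι) (m ∘ e.symm) y (c ∘ e.symm) (by
    rw [h]
    exact (Equiv.sum_comp e.symm (fun k => algebraMap K F (c k) * (m k : F))).symm)
  refine ⟨c' ∘ e, ?_⟩
  rw [hc']
  refine (Equiv.sum_comp e (fun k => algebraMap L E (c' k) * (m ∘ e.symm) k)).symm.trans ?_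
  refine Finset.sum_congr rfl fun k _ => ?_
  simp

/-- `aeval` as a sum over `Fin`. -/
theorem desc_aeval_fin {R A : Type*} [CommRing R] [CommRing A] [Algebra R A] (x : A) (p : R[X])
    {n : ℕ} (hn : p.natDegree < n) :
    aeval x p = ∑ a : Fin n, algebraMap R A (p.coeff a) * x ^ (a : ℕ) := by
  rw [aeval_eq_sum_range' hn, Finset.sum_range]
  exact Finset.sum_congr rfl fun a _ => Algebra.smul_def _ _

theorem desc_aeval_sum {R A : Type*} [CommRing R] [CommRing A] [Algebra R A] (x : A) {n : ℕ}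
    (c : Fin n → R) :
    aeval x (∑ a : Fin n, C (c a) * X ^ (a : ℕ)) = ∑ a : Fin n, algebraMap R A (c a) * x ^ (a : ℕ) := by
  simp only [map_sum, map_mul, aeval_C, map_pow, aeval_X]

theorem isInt_of_isIntL (hc : Compat L K E) {u z : E} (h : IsInt L u z) : IsInt K (u : F) (z : F) := by
  obtain ⟨P, hP, hz⟩ := h
  refine ⟨P.map (mapRingHom (algebraMap L K)), hP.map _, ?_⟩
  rw [eval₂_map, ← desc_comp_eq hc u]
  have h1 := hom_eval₂ P ((aeval u : L[X] →ₐ[L] E) : L[X] →+* E) E.subtype z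
  rw [hz, map_zero] at h1
  exact h1.symm

/-- PROOF. `IsInt K u z`: `z^N = ∑_{s<N} (aeval u (g s)) z^s = ∑_{s<N} ∑_{a ≤ D} (g s).coeff a • u^a z^s`: a `K`-linear relation between
the elements `z^N`, `u^a z^s` of `E` (reindex `Fin N × Fin (D+1) ≃ Fin r`).  `B2` gives coefficients in `L`, i.e. a monic
polynomial over `L[X]`. -/
theorem isIntL_of_isInt (hc : Compat L K E) (h2 : B2 L K E) {u z : E} (h : IsInt K (u : F) (z : F)) :
    IsInt L u z := by
  obtain ⟨P, hP, hz⟩ := h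
  set N := P.natDegree with hN
  set D := (Finset.range N).sup fun s => (P.coeff s).natDegree with hD
  have hlt : ∀ s : Fin N, (P.coeff s).natDegree < D + 1 := fun s =>
    Nat.lt_succ_of_le (Finset.le_sup (f := fun s => (P.coeff s).natDegree) (Finset.mem_range.2 s.2))
  have hrel : ((z ^ N : E) : F) = ∑ x : Fin N × Fin (D + 1),
      algebraMap K F (-(P.coeff x.1).coeff x.2) * ((u ^ (x.2 : ℕ) * z ^ (x.1 : ℕ) : E) : F) := by
    rw [eval₂_eq_sum_range, Finset.sum_range_succ, ← hN, hP.coeff_natDegree, map_one, one_mul,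
      Finset.sum_range] at hz
    rw [Fintype.sum_prod_type]
    have h1 : ((z ^ N : E) : F) = (z : F) ^ N := rfl
    rw [h1, eq_neg_of_add_eq_zero_right hz, ← Finset.sum_neg_distrib]
    refine Finset.sum_congr rfl fun s _ => ?_
    have h3 : ((aeval (u : F) : K[X] →ₐ[K] F) : K[X] →+* F) (P.coeff s) = aeval (u : F) (P.coeff s) :=
      rfl
    rw [h3, desc_aeval_fin (u : F) _ (hlt s), Finset.sum_mul, ← Finset.sum_neg_distrib]
    refine Finset.sum_congr rfl fun a _ => ?_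
    have h2 : ((u ^ (a : ℕ) * z ^ (s : ℕ) : E) : F) = (u : F) ^ (a : ℕ) * (z : F) ^ (s : ℕ) := rfl
    rw [h2, map_neg]
    ring
  obtain ⟨c', hc'⟩ := desc_B2 h2 _ _ _ hrel
  refine ⟨X ^ N - ∑ s : Fin N, C (∑ a : Fin (D + 1), C (c' (s, a)) * X ^ (a : ℕ)) * X ^ (s : ℕ),
    (monic_X_pow N).sub_of_left (by rw [degree_X_pow]; exact degree_sum_fin_lt _), ?_⟩
  rw [eval₂_sub, eval₂_pow, eval₂_X, eval₂_finsetSum, hc', Fintype.sum_prod_type, sub_eq_zero]
  refine Finset.sum_congr rfl fun s _ => ?_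
  rw [eval₂_mul, eval₂_C, eval₂_pow, eval₂_X]
  have h3 : ((aeval u : L[X] →ₐ[L] E) : L[X] →+* E) (∑ a : Fin (D + 1), C (c' (s, a)) * X ^ (a : ℕ)) =
      aeval u (∑ a : Fin (D + 1), C (c' (s, a)) * X ^ (a : ℕ)) := rfl
  rw [h3, desc_aeval_sum, Finset.sum_mul]
  exact Finset.sum_congr rfl fun a _ => (mul_assoc _ _ _).symm

/-- PROOF. for `x : E`: `g(u) x = ∑ l, p l (u) β' l`, `g ≠ 0`; divide by the leading coefficient of `g`; then
`u^D x = -∑_{a<D} g_a u^a x + ∑_{l,a} p_{l,a} u^a β' l` is a `K`-linear relation in `E`; `B2`; the new `g'` is monic of degree `D`. -/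
theorem spansL_of_spans (hc : Compat L K E) (h2 : B2 L K E) {u : E} {d : ℕ} {β' : Fin d → E}
    (hs : Spans K (u : F) (fun l => (β' l : F))) : Spans L u β' := by
  intro x
  obtain ⟨g, p, hg, hx⟩ := hs (x : F)
  set D := g.natDegree with hD
  set D' := Finset.univ.sup fun l => (p l).natDegree with hD'
  have hlt : ∀ l, (p l).natDegree < D' + 1 := fun l =>
    Nat.lt_succ_of_le (Finset.le_sup (f := fun l => (p l).natDegree) (Finset.mem_univ l))
  set α := g.leadingCoeff with hα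
  have hα0 : α ≠ 0 := leadingCoeff_ne_zero.2 hg
  have hα0' : algebraMap K F α ≠ 0 := by rwa [Ne, map_eq_zero]
  have hrel : ((u ^ D * x : E) : F) = ∑ k : Fin D ⊕ (Fin d × Fin (D' + 1)),
      algebraMap K F (Sum.elim (fun a : Fin D => -(α⁻¹ * g.coeff a))
        (fun y : Fin d × Fin (D' + 1) => α⁻¹ * (p y.1).coeff y.2) k) *
      ((Sum.elim (fun a : Fin D => u ^ (a : ℕ) * x)
        (fun y : Fin d × Fin (D' + 1) => u ^ (y.2 : ℕ) * β' y.1) k : E) : F) := by
    rw [Fintype.sum_sum_type, Fintype.sum_prod_type]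
    simp only [Sum.elim_inl, Sum.elim_inr]
    rw [desc_aeval_fin (u : F) g (Nat.lt_succ_self _), Fin.sum_univ_castSucc, comb] at hx
    simp only [Fin.val_castSucc, Fin.val_last] at hx
    have h1 : ((u ^ D * x : E) : F) = (u : F) ^ D * (x : F) := rfl
    have h2 : g.coeff g.natDegree = α := rfl
    rw [h2, ← hD] at hx
    have h3 : (u : F) ^ D * (x : F) = (algebraMap K F α)⁻¹ *
        (∑ l, aeval (u : F) (p l) * (β' l : F) -
          (∑ a : Fin D, algebraMap K F (g.coeff a) * (u : F) ^ (a : ℕ)) * (x : F)) := by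
      rw [← hx]
      field_simp
      ring
    rw [h1, h3, mul_sub, sub_eq_neg_add, Finset.sum_mul, Finset.mul_sum, Finset.mul_sum,
      ← Finset.sum_neg_distrib]
    congr 1
    · refine Finset.sum_congr rfl fun a _ => ?_
      have h4 : ((u ^ (a : ℕ) * x : E) : F) = (u : F) ^ (a : ℕ) * (x : F) := rfl
      rw [h4, map_neg, map_mul, map_inv₀]
      ring
    · refine Finset.sum_congr rfl fun l _ => ?_
      rw [desc_aeval_fin (u : F) _ (hlt l), Finset.sum_mul, Finset.mul_sum]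
      refine Finset.sum_congr rfl fun a _ => ?_
      have h4 : ((u ^ (a : ℕ) * β' l : E) : F) = (u : F) ^ (a : ℕ) * (β' l : F) := rfl
      rw [h4, map_mul, map_inv₀]
      ring
  obtain ⟨c', hc'⟩ := desc_B2 h2 _ _ _ hrel
  rw [Fintype.sum_sum_type, Fintype.sum_prod_type] at hc'
  simp only [Sum.elim_inl, Sum.elim_inr] at hc'
  have hmon : (X ^ D - ∑ a : Fin D, C (c' (Sum.inl a)) * X ^ (a : ℕ) : L[X]).Monic :=
    (monic_X_pow D).sub_of_left (by rw [degree_X_pow]; exact degree_sum_fin_lt _)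
  refine ⟨X ^ D - ∑ a : Fin D, C (c' (Sum.inl a)) * X ^ (a : ℕ),
    fun l => ∑ a : Fin (D' + 1), C (c' (Sum.inr (l, a))) * X ^ (a : ℕ), hmon.ne_zero, ?_⟩
  rw [map_sub, map_pow, aeval_X, desc_aeval_sum, sub_mul, hc', comb, Finset.sum_mul]
  simp only [desc_aeval_sum, Finset.sum_mul, mul_assoc]
  ring

variable [Fintype I] [Nonempty I]

/-- `Setup` restricts to `E`. -/
theorem setupL_of_setup (hc : Compat L K E) {v : Idx I → Valuation F Γ₀} {u : E} (S : Setup K v (u : F)) (i₀ : I) :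
    Setup L (BK.v3 E v i₀) u := by
  refine ⟨fun j p γ => ?_, fun i j a => ?_⟩
  · rw [BK.v3_apply, coe_aeval hc, S.G (BK.l3 i₀ j) (p.map (algebraMap L K)) γ]
    refine forall_congr' fun a => ?_
    rw [BK.v3_apply, hc, coeff_map]
  · rw [BK.v3_apply, BK.v3_apply, hc]
    exact S.eqL _ _ _

/-- the sup norms agree on `E` if the middle valuations agree on `E`. -/
theorem NN_v3 {v : Idx I → Valuation F Γ₀} (hmd : ∀ z ∈ E, ∀ i j : I, v (md i) z = v (md j) z) (i₀ : I) (z : E) :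
    NN (BK.v3 E v i₀) z = NN v (z : F) := by
  apply le_antisymm
  · exact NN_le_iff.2 fun j => le_NN (v := v) (BK.l3 i₀ j) (z : F)
  · refine NN_le_iff.2 fun i => ?_
    rcases i with _ | _ | i
    · exact le_NN (v := BK.v3 E v i₀) oo z
    · exact le_NN (v := BK.v3 E v i₀) zr z
    · have h1 : v (md i) (z : F) = BK.v3 E v i₀ (md ()) z := hmd z z.2 i i₀
      exact h1.le.trans (le_NN (v := BK.v3 E v i₀) (md ()) z)

/-- (NB) for a rescaled orthonormal basis.  `γ := min_l v oo (c l)` (or the product of the `min (v oo (c l)) 1`).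
`comb L u p β'` maps to `comb K u (fun l => C (c l) * (p l).map _) β` in `F`; apply `hβ` with `γ' := NN v (…)`. -/
theorem nb_of_onm (hc : Compat L K E) {v : Idx I → Valuation F Γ₀} {u : E}
    (hmd : ∀ z ∈ E, ∀ i j : I, v (md i) z = v (md j) z) (i₀ : I) {d : ℕ} {β : Fin d → F}
    (hβ : ONm K v oo (u : F) β) {β' : Fin d → E} {c : Fin d → K} (hc0 : ∀ l, c l ≠ 0)
    (hββ' : ∀ l, (β' l : F) = algebraMap K F (c l) * β l) :
    ∃ γ : Γ₀, γ ≠ 0 ∧ ∀ (p : Fin d → L[X]) (l : Fin d),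
      BK.v3 E v i₀ oo (aeval u (p l)) * γ ≤ NN (BK.v3 E v i₀) (comb L u p β') := by
  rcases isEmpty_or_nonempty (Fin d) with hd | hd
  · exact ⟨1, one_ne_zero, fun p l => hd.elim l⟩
  obtain ⟨l₀, hl₀⟩ := Finite.exists_min (fun l => v oo (algebraMap K F (c l)))
  refine ⟨v oo (algebraMap K F (c l₀)), ?_, fun p l => ?_⟩
  · rw [Valuation.ne_zero_iff, Ne, map_eq_zero_iff _ (algebraMap K F).injective]
    exact hc0 l₀
  have e : ((comb L u p β' : E) : F)
      = comb K (u : F) (fun l => C (c l) * (p l).map (algebraMap L K)) β := by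
    unfold comb
    rw [← Subfield.subtype_apply, map_sum]
    refine Finset.sum_congr rfl fun l _ => ?_
    rw [Subfield.subtype_apply, Subfield.coe_mul, coe_aeval hc, hββ', map_mul, aeval_C]
    ring
  have h1 := (hβ (fun l => C (c l) * (p l).map (algebraMap L K)) _).1 le_rfl l
  rw [NN_v3 hmd i₀, e]
  refine le_trans ?_ h1
  rw [map_mul, aeval_C, map_mul, BK.v3_apply, coe_aeval hc, mul_comm]
  exact mul_le_mul' (hl₀ l) le_rfl

theorem spans_rescale {u : F} {d : ℕ} {β β' : Fin d → F} {c : Fin d → K} (hc0 : ∀ l, c l ≠ 0)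
    (hββ' : ∀ l, β' l = algebraMap K F (c l) * β l) (hs : Spans K u β) : Spans K u β' := by
  intro x
  obtain ⟨q, p, hq, h⟩ := hs x
  refine ⟨q, fun l => C (c l)⁻¹ * p l, hq, ?_⟩
  rw [h]
  unfold comb
  refine Finset.sum_congr rfl fun l _ => ?_
  have h0 : algebraMap K F (c l) ≠ 0 := by
    rw [Ne, map_eq_zero_iff _ (algebraMap K F).injective]
    exact hc0 l
  rw [hββ', map_mul, aeval_C, map_inv₀]
  field_simp

/-- the two descriptions of the chart ring coincide. -/
theorem Bu_eq_BuL (hc : Compat L K E) (h2 : B2 L K E) {v : Idx I → Valuation F Γ₀} {u : E}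
    (hmd : ∀ z ∈ E, ∀ i j : I, v (md i) z = v (md j) z) (i₀ : I) :
    BK.Bu K E v (u : F) = BuL L (BK.v3 E v i₀) u := by
  ext z
  rw [BK.mem_Bu, mem_BuL, ← NN_le_iff, ← NN_le_iff, NN_v3 hmd i₀]
  exact and_congr_left fun _ => ⟨isIntL_of_isInt hc h2, isInt_of_isIntL hc⟩

/-- **(FG) for the concrete chart ring.**  Assembly: `Bu_eq_BuL`, `fg_Lam_BuL` with `setupL_of_setup`, `spansL_of_spans` (after
`spans_rescale`), `nb_of_onm`. -/
theorem fg_Lam_Bu [CharZero L] (hc : Compat L K E) (h2 : B2 L K E) {v : Idx I → Valuation F Γ₀} {u : E}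
    (S : Setup K v (u : F)) (hA : ∀ i, Arch (v i))
    (hmd : ∀ z ∈ E, ∀ i j : I, v (md i) z = v (md j) z) (i₀ : I) {d : ℕ} {β : Fin d → F}
    (hβ : ONm K v oo (u : F) β) (hβs : Spans K (u : F) β) {β' : Fin d → E} {c : Fin d → K}
    (hc0 : ∀ l, c l ≠ 0) (hββ' : ∀ l, (β' l : F) = algebraMap K F (c l) * β l)
    {ϖ : L} (hϖ0 : ϖ ≠ 0) (hϖ1 : v oo (algebraMap K F (algebraMap L K ϖ)) < 1)
    (hϖ : ∀ a : L, v oo (algebraMap K F (algebraMap L K a)) < 1 →
      v oo (algebraMap K F (algebraMap L K a)) ≤ v oo (algebraMap K F (algebraMap L K ϖ)))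
    {n : ℕ} (hn : 0 < n) {w : E} (hw : w ≠ 0) :
    ∃ (r : ℕ) (g : Fin r → E), (∀ k, g k ∈ NS.Lam (BK.Bu K E v (u : F)) n w) ∧
      ∀ φ ∈ NS.Lam (BK.Bu K E v (u : F)) n w, ∃ b : Fin r → BK.Bu K E v (u : F), φ = ∑ k, ((b k : E)) * g k := by
  rw [Bu_eq_BuL hc h2 hmd i₀]
  have hv : ∀ a : L, BK.v3 E v i₀ oo (algebraMap L E a)
      = v oo (algebraMap K F (algebraMap L K a)) := fun a => by
    rw [BK.v3_apply, hc]
    rfl
  refine fg_Lam_BuL (setupL_of_setup hc S i₀) oo (fun j x hx γ hγ => hA (BK.l3 i₀ j) (x : F) hx γ hγ)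
    β' (spansL_of_spans hc h2 (spans_rescale hc0 hββ' hβs)) (nb_of_onm hc hmd i₀ hβ hc0 hββ')
    hϖ0 (by rw [hv]; exact hϖ1) (fun a ha => ?_) hn hw
  rw [hv] at ha ⊢
  rw [hv]
  exact hϖ a ha

end Fermat.Agent.CAR.FG
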