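import Fermat.Agent.CAR.FG.Desc

/-!
# CAR / HG : hypothesis (HG) of `NS.ns_main` ("`n ∣ div w` on the generic fibre") from `KL.LocPow`
-/

set_option autoImplicit false

namespace Fermat.Agent.CAR.FG

open Polynomial Fermat.Agent.GAL Fermat.Agent.GAL.KL Fermat.Agent.CAR.KLm Fermat.Agent.CAR.ON

/-- (HG-1) over an algebraically closed field.
PROOF. For `c : K` let `z, g` be as in `LocPow K t n w c`: `g.eval c ≠ 0`, `a := g(t) z^n w`, `a' := g(t) (z^n w)⁻¹` integral.
`x := g(t) z ∈ II` (`x^n w = g(t)^(n-1) a`), and `x^n w a' = g(t)^(n+1)` (`z^n w ≠ 0`: if `w = 0` then `a' = 0`... NB `w ≠ 0` is a hypothesis).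
The ideal of `K[X]` generated by the `g_c^(n+1)` is `⊤`: otherwise it lies in a maximal ideal, which is `(X - C c₀)`
(`IsAlgClosed`: a proper ideal of `K[X]` is generated by a non-unit `f`, which has a root `c₀`), so `g_{c₀}.eval c₀ = 0`.
So `1 = ∑_{c ∈ T} r_c g_c^(n+1)`, `T` finite (`Ideal.span`, `Submodule.mem_span_set'`/`Finsupp`).  Enumerate `T ≃ Fin m`;
`φ k 0 := r_c(t) a'_c x_c` (`II.mul`), `φ k j := x_c` for `j ≠ 0` (`Fin n`, `n > 0`: `Fin.prod_univ_succ` after `n = n'+1`). -/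
theorem hg_of_locPow {K F : Type*} [Field K] [Field F] [Algebra K F] [IsAlgClosed K] {t : F} {n : ℕ}
    (hn : 0 < n) {w : F} (hw : w ≠ 0) (h : ∀ c : K, LocPow K t n w c) :
    ∃ (m : ℕ) (φ : Fin m → Fin n → F), (∀ k j, φ k j ∈ II K t n w) ∧ (∑ k, ∏ j, φ k j) * w = 1 := by
  classical
  obtain ⟨n', rfl⟩ : ∃ n', n = n' + 1 := ⟨n - 1, by omega⟩
  choose z g hz hg ha ha' using h
  -- the ideal generated by the `g c ^ (n + 1)` is `⊤`
  have htop : Ideal.span (Set.range fun c : K => g c ^ (n' + 1 + 1)) = ⊤ := by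
    by_contra hne
    obtain ⟨f, hf⟩ : ∃ f, Ideal.span (Set.range fun c : K => g c ^ (n' + 1 + 1)) = Ideal.span {f} :=
      ⟨_, (Ideal.span_singleton_generator _).symm⟩
    have hfu : ¬ IsUnit f := by
      intro hu
      apply hne
      rw [hf]
      exact Ideal.span_singleton_eq_top.2 hu
    obtain ⟨c₀, hc₀⟩ : ∃ c₀, f.IsRoot c₀ := by
      by_cases hf0 : f = 0
      · exact ⟨0, by rw [hf0]; exact Polynomial.eval_zero⟩
      · exact IsAlgClosed.exists_root f
          (fun hdeg => hfu (Polynomial.isUnit_iff_degree_eq_zero.2 hdeg))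
    have hmem : g c₀ ^ (n' + 1 + 1) ∈ Ideal.span {f} := by
      rw [← hf]
      exact Ideal.subset_span ⟨c₀, rfl⟩
    obtain ⟨r, hr⟩ := Ideal.mem_span_singleton'.1 hmem
    have h0 := congrArg (eval c₀) hr
    rw [eval_mul, hc₀.eq_zero, mul_zero, eval_pow] at h0
    exact hg c₀ (pow_eq_zero_iff (Nat.succ_ne_zero _) |>.1 h0.symm)
  have h1 : (1 : K[X]) ∈ Ideal.span (Set.range fun c : K => g c ^ (n' + 1 + 1)) := by
    rw [htop]
    trivial
  obtain ⟨l, hl⟩ := (Finsupp.mem_span_range_iff_exists_finsupp).1 h1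
  set T := l.support with hT
  set eT := T.equivFin.symm with heT
  set xx : K → F := fun c => aeval t (g c) * z c with hxx
  set A : K → F := fun c => aeval t (l c) * (aeval t (g c) * (z c ^ (n' + 1) * w)⁻¹) with hA
  have hxII : ∀ c, xx c ∈ II K t (n' + 1) w := by
    intro c
    have : xx c ^ (n' + 1) * w = aeval t (g c) ^ n' * (aeval t (g c) * (z c ^ (n' + 1) * w)) := by
      rw [hxx]
      ring
    show IsInt K t (xx c ^ (n' + 1) * w)
    rw [this]
    exact ((IsInt.aeval _).pow _).mul (ha c)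
  have hAI : ∀ c, IsInt K t (A c) := fun c => (IsInt.aeval _).mul (ha' c)
  have hkey : ∀ c, A c * xx c ^ (n' + 1) * w = aeval t (l c • g c ^ (n' + 1 + 1)) := by
    intro c
    have hne : z c ^ (n' + 1) * w ≠ 0 := mul_ne_zero (pow_ne_zero _ (hz c)) hw
    rw [hA, hxx, smul_eq_mul, map_mul, map_pow]
    have e1 : aeval t (l c) * (aeval t (g c) * (z c ^ (n' + 1) * w)⁻¹) *
        (aeval t (g c) * z c) ^ (n' + 1) * w =
        aeval t (l c) * aeval t (g c) ^ (n' + 1 + 1) *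
          ((z c ^ (n' + 1) * w)⁻¹ * (z c ^ (n' + 1) * w)) := by
      ring
    rw [e1, inv_mul_cancel₀ hne, mul_one]
  refine ⟨T.card, fun k j => (if j = 0 then A (eT k) else 1) * xx (eT k), fun k j => ?_, ?_⟩
  · show (if j = 0 then A (eT k) else 1) * xx (eT k) ∈ II K t (n' + 1) w
    by_cases hj : j = 0
    · rw [if_pos hj]
      exact II.mul (hAI _) (hxII _)
    · rw [if_neg hj, one_mul]
      exact hxII _
  · have hprod : ∀ k : Fin T.card, ∏ j : Fin (n' + 1), (if j = 0 then A (eT k) else 1) * xx (eT k) =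
        A (eT k) * xx (eT k) ^ (n' + 1) := by
      intro k
      rw [Finset.prod_mul_distrib, Finset.prod_ite_eq' Finset.univ (0 : Fin (n' + 1)) fun _ => A (eT k),
        if_pos (Finset.mem_univ _), Finset.prod_const, Finset.card_univ, Fintype.card_fin]
    simp only [hprod]
    rw [Finset.sum_mul]
    simp only [hkey]
    rw [Equiv.sum_comp eT (fun c : T => aeval t (l (c : K) • g (c : K) ^ (n' + 1 + 1))),
      Finset.sum_coe_sort T (fun c => aeval t (l c • g c ^ (n' + 1 + 1))), ← map_sum]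
    have : ∑ c ∈ T, l c • g c ^ (n' + 1 + 1) = 1 := hl
    rw [this, map_one]

variable {L K F Γ₀ I : Type*} [Field L] [Field K] [Field F] [Algebra K F] [Algebra L K]
  [LinearOrderedCommGroupWithZero Γ₀] {E : Subfield F} [Algebra L E]

/-- (HG-2) descent to `E`.  `SPAN`: `II` is spanned over `K` by its elements in `E`.
PROOF. Write `φ k j = ∑ a, c k j a • ψ k j a` (pad to a common length `r`, or use sigma types).  `Finset.prod_univ_sum`:
`∏ j, φ k j = ∑ f : Fin n → Fin r, (∏ j, c k j (f j)) • ∏ j, ψ k j (f j)`.  So `1 = ∑_{(k,f)} C_{k,f} • M_{k,f}`,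
`M_{k,f} := (∏ j, ψ k j (f j)) * w ∈ E`.  `B2` gives `C' : _ → L`.  Reindex `(k,f)` by `Fin m'` (`Fintype.equivFin`);
`φ' (k,f) 0 := C'_{k,f} ψ k 0 (f 0)`, `φ' (k,f) j := ψ k j (f j)`  (`n > 0`; `II.mul (IsInt.algebraMap _)`). -/
theorem hg_descent (hc : Compat L K E) (h2 : B2 L K E) {u : F} {n : ℕ} (hn : 0 < n) {w : E}
    (SPAN : ∀ φ ∈ II K u n (w : F), ∃ (r : ℕ) (c : Fin r → K) (ψ : Fin r → E),
      (∀ a, (ψ a : F) ∈ II K u n (w : F)) ∧ φ = ∑ a, algebraMap K F (c a) * (ψ a : F))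
    (h : ∃ (m : ℕ) (φ : Fin m → Fin n → F), (∀ k j, φ k j ∈ II K u n (w : F)) ∧
      (∑ k, ∏ j, φ k j) * (w : F) = 1) :
    ∃ (m : ℕ) (φ : Fin m → Fin n → E), (∀ k j, (φ k j : F) ∈ II K u n (w : F)) ∧
      (∑ k, ∏ j, φ k j) * w = 1 := by
  classical
  obtain ⟨m, φ, hφII, hsum⟩ := h
  choose r c ψ hψ hφ using fun k j => SPAN (φ k j) (hφII k j)
  -- the index set of the monomials
  let Idx : Type := Σ k : Fin m, (∀ j : Fin n, Fin (r k j))
  let C : Idx → K := fun x => ∏ j, c x.1 j (x.2 j)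
  let Mn : Idx → E := fun x => (∏ j, ψ x.1 j (x.2 j)) * w
  have hexp : (1 : F) = ∑ x : Idx, algebraMap K F (C x) * (Mn x : F) := by
    rw [← hsum, Finset.sum_mul, Fintype.sum_sigma]
    refine Finset.sum_congr rfl fun k _ => ?_
    have h1 : ∏ j, φ k j = ∑ f : (∀ j : Fin n, Fin (r k j)),
        ∏ j, (algebraMap K F (c k j (f j)) * (ψ k j (f j) : F)) := by
      rw [← Fintype.prod_sum (fun j (a : Fin (r k j)) => algebraMap K F (c k j a) * (ψ k j a : F))]
      exact Finset.prod_congr rfl fun j _ => hφ k j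
    rw [h1, Finset.sum_mul]
    refine Finset.sum_congr rfl fun f _ => ?_
    show _ = algebraMap K F (∏ j, c k j (f j)) * (((∏ j, ψ k j (f j)) * w : E) : F)
    rw [Finset.prod_mul_distrib, map_prod]
    push_cast
    ring
  let e : Idx ≃ Fin (Fintype.card Idx) := Fintype.equivFin Idx
  obtain ⟨c', hc'⟩ := h2 (Fintype.card Idx) (fun i => Mn (e.symm i)) 1 (fun i => C (e.symm i)) (by
    rw [Subfield.coe_one, hexp]
    exact (Equiv.sum_comp e.symm (fun x => algebraMap K F (C x) * (Mn x : F))).symm)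
  let j₀ : Fin n := ⟨0, hn⟩
  refine ⟨Fintype.card Idx, fun i j => (if j = j₀ then algebraMap L E (c' i) else 1) *
    ψ (e.symm i).1 j ((e.symm i).2 j), fun i j => ?_, ?_⟩
  · rw [Subfield.coe_mul]
    refine II.mul ?_ (hψ _ _ _)
    split_ifs
    · rw [hc]
      exact IsInt.algebraMap _
    · rw [Subfield.coe_one]
      exact IsInt.one
  · refine Eq.trans ?_ hc'.symm
    rw [Finset.sum_mul]
    refine Finset.sum_congr rfl fun i _ => ?_
    rw [Finset.prod_mul_distrib, Finset.prod_ite_eq' Finset.univ j₀, if_pos (Finset.mem_univ _),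
      mul_assoc]

variable [Fintype I]

/-- (HG-3) **hypothesis (HG) for the concrete chart ring** (`NS.hg_of_generic` with `N₀ = 0`: for `φ : E` with `φ^n w` integral over
`K[u]` some `π^a φ^n w` lies in `Bu`: `hA i` for the finitely many `i`, `v i π < 1`). -/
theorem hg_Bu {v : Idx I → Valuation F Γ₀} {u : F} (hA : ∀ i, Arch (v i)) {π : BK.Bu K E v u}
    (hπ : ∀ i, v i ((π : E) : F) < 1) (hπ0 : π ≠ 0) {n : ℕ} (hn : 0 < n) {w : E}
    (h : ∃ (m : ℕ) (φ : Fin m → Fin n → E), (∀ k j, (φ k j : F) ∈ II K u n (w : F)) ∧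
      (∑ k, ∏ j, φ k j) * w = 1) :
    ∃ (N m : ℕ) (φ : Fin m → Fin n → E), (∀ k j, φ k j ∈ NS.Lam (BK.Bu K E v u) n w) ∧
      (∑ k, ∏ j, φ k j) * w = ((π : E)) ^ N := by
  obtain ⟨m, φ, hφ, h1⟩ := h
  refine NS.hg_of_generic (B := BK.Bu K E v u) (π := π) hn (N₀ := 0) φ (fun k j => ?_)
    (by rw [pow_zero]; exact h1)
  set y : E := φ k j ^ n * w with hy
  have hyI : IsInt K u (y : F) := by
    have := hφ k j
    simpa [hy, II] using this
  have hex : ∀ i, ∃ a : ℕ, v i ((π : E) : F) ^ a * v i (y : F) ≤ 1 := by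
    intro i
    by_cases h0 : v i (y : F) = 0
    · exact ⟨0, by rw [h0, mul_zero]; exact zero_le'⟩
    · obtain ⟨a, ha⟩ := hA i _ (hπ i) (v i (y : F))⁻¹ (inv_ne_zero h0)
      refine ⟨a, ?_⟩
      have h2 := mul_le_mul_left ha.le (v i (y : F))
      rwa [inv_mul_cancel₀ h0] at h2
  choose a ha using hex
  refine ⟨Finset.univ.sup a, ?_, fun i => ?_⟩
  · rw [Subfield.coe_mul, SubmonoidClass.coe_pow]
    exact (IsInt.pow π.2.1 _).mul hyI
  · rw [Subfield.coe_mul, SubmonoidClass.coe_pow, map_mul, map_pow]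
    refine le_trans ?_ (ha i)
    exact mul_le_mul_left (pow_le_pow_of_le_one zero_le' (hπ i).le
      (Finset.le_sup (Finset.mem_univ i))) _

end Fermat.Agent.CAR.FG
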