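import Fermat.Agent.CAR.FG.Pid
import Fermat.Agent.CAR.FG.Bound
import Fermat.Agent.CAR.NS.FG

/-!
# CAR / FG-4 : the chart ring over a discretely valued field is noetherian; hypothesis (FG) of `NS.ns_main`
-/

set_option autoImplicit false

namespace Fermat.Agent.CAR.FG

open Polynomial Fermat.Agent.GAL Fermat.Agent.GAL.KL Fermat.Agent.CAR.KLm

variable {L E Γ₀ ι : Type*} [Field L] [Field E] [Algebra L E] [LinearOrderedCommGroupWithZero Γ₀]

variable (L) in
/-- the chart ring `{z | z integral over L[u], v i z ≤ 1 for all i}`. -/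
def BuL (v : ι → Valuation E Γ₀) (u : E) : Subring E where
  carrier := {z | IsInt L u z ∧ ∀ i, v i z ≤ 1}
  mul_mem' := fun h h' => ⟨h.1.mul h'.1, fun i => by
    rw [map_mul]; exact mul_le_one' (h.2 i) (h'.2 i)⟩
  one_mem' := ⟨IsInt.one, fun i => by rw [map_one]⟩
  add_mem' := fun h h' => ⟨h.1.add h'.1, fun i =>
    (Valuation.map_add _ _ _).trans (max_le (h.2 i) (h'.2 i))⟩
  zero_mem' := ⟨IsInt.zero, fun i => by rw [map_zero]; exact zero_le⟩
  neg_mem' := fun h => ⟨h.1.neg, fun i => by rw [Valuation.map_neg]; exact h.2 i⟩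

theorem mem_BuL {v : ι → Valuation E Γ₀} {u z : E} : z ∈ BuL L v u ↔ IsInt L u z ∧ ∀ i, v i z ≤ 1 := Iff.rfl

theorem noeth_isIntegralElem_of_comp {R S T : Type*} [CommRing R] [CommRing S] [CommRing T]
    (f : R →+* S) (g : S →+* T) {x : T} (hx : (g.comp f).IsIntegralElem x) : g.IsIntegralElem x := by
  obtain ⟨P, hP, hPx⟩ := hx
  exact ⟨P.map f, hP.map f, by rwa [Polynomial.eval₂_map]⟩

/-- `BuL` is integrally closed in `E` (transitivity of integrality; valuation rings are integrally closed: from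
`x^N = -∑_{s<N} b_s x^s`, `v b_s ≤ 1`, `v x > 1` is impossible). -/
theorem ic_BuL (v : ι → Valuation E Γ₀) (u : E) (x : E) (hx : IsIntegral (BuL L v u) x) : x ∈ BuL L v u := by
  refine ⟨?_, fun i => ?_⟩
  · let _ : Algebra L[X] E := ((Polynomial.aeval u : L[X] →ₐ[L] E) : L[X] →+* E).toAlgebra
    let f : BuL L v u →+* integralClosure L[X] E :=
      (BuL L v u).subtype.codRestrict (integralClosure L[X] E) (fun z => z.2.1)
    have h1 : IsIntegral (integralClosure L[X] E) x :=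
      noeth_isIntegralElem_of_comp f (algebraMap (integralClosure L[X] E) E) hx
    exact isIntegral_trans x h1
  · let f : BuL L v u →+* (v i).integer :=
      (BuL L v u).subtype.codRestrict (v i).integer (fun z => z.2.2 i)
    have h1 : IsIntegral (v i).integer x :=
      noeth_isIntegralElem_of_comp f (algebraMap (v i).integer E) hx
    exact (Valuation.integer.integers (v i)).mem_of_integral h1

variable [Fintype ι] [Nonempty ι]

/-- PROOF. `vL := (v o).comap (algebraMap L E)`, `O := vL.integer`: a PID by `isPrincipalIdealRing_integer` (`Arch vL` from `hA`), so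
`O[X]` is noetherian and so is `A₀ := (eval₂RingHom ((algebraMap L E).comp O.subtype) u).range` (`isNoetherianRing_range`).
`A₀ ≤ BuL`: `IsInt.aeval`-type lemma + `S.G i` + `S.eqL`.  `exists_bound` gives `ε`; for `z ∈ BuL` the `P l` have coefficients in `O`, so
`aeval u (P l) ∈ A₀`.  Conclude by `isNoetherianRing_of_le_span`. -/
theorem isNoetherianRing_BuL [CharZero L] {v : ι → Valuation E Γ₀} {u : E} (S : Setup L v u) (o : ι)
    (hA : Arch (v o)) {d : ℕ} (β' : Fin d → E) (hs : Spans L u β')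
    (NB : ∃ γ : Γ₀, γ ≠ 0 ∧ ∀ (p : Fin d → L[X]) (l : Fin d),
      v o (aeval u (p l)) * γ ≤ NN v (comb L u p β'))
    {ϖ : L} (hϖ0 : ϖ ≠ 0) (hϖ1 : v o (algebraMap L E ϖ) < 1)
    (hϖ : ∀ a : L, v o (algebraMap L E a) < 1 → v o (algebraMap L E a) ≤ v o (algebraMap L E ϖ)) :
    IsNoetherianRing (BuL L v u) := by
  set vL : Valuation L Γ₀ := (v o).comap (algebraMap L E) with hvL
  have hAL : Arch vL := fun x hx γ hγ => hA (algebraMap L E x) hx γ hγ
  have hpid : IsPrincipalIdealRing vL.integer :=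
    isPrincipalIdealRing_integer vL hAL hϖ0 hϖ1 hϖ
  set φ : (vL.integer)[X] →+* E :=
    Polynomial.eval₂RingHom ((algebraMap L E).comp vL.integer.subtype) u with hφ
  have hφa : ∀ Q : (vL.integer)[X], φ Q = aeval u (Q.map vL.integer.subtype) := by
    intro Q
    rw [hφ, Polynomial.coe_eval₂RingHom, Polynomial.aeval_def, Polynomial.eval₂_map]
  have hAB : φ.range ≤ BuL L v u := by
    rintro _ ⟨Q, rfl⟩
    rw [hφa]
    refine ⟨IsInt.aeval _, fun i => (S.G i _ 1).2 fun a => ?_⟩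
    rw [Polynomial.coeff_map, S.eqL i o]
    exact (Q.coeff a).2
  obtain ⟨ε, hε⟩ := exists_bound S o hA β' hs NB hϖ0 hϖ1
  refine isNoetherianRing_of_le_span φ.range (BuL L v u) hAB ε fun z hz => ?_
  obtain ⟨P, hP, hz'⟩ := hε z hz.1 hz.2
  have hsub : ∀ l, ((P l).coeffs : Set L) ⊆ vL.integer := by
    intro l c hc
    obtain ⟨a, -, rfl⟩ := Polynomial.mem_coeffs_iff.1 (Finset.mem_coe.1 hc)
    exact hP l a
  refine ⟨fun l => ⟨aeval u (P l), (P l).toSubring vL.integer (hsub l), ?_⟩, hz'⟩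
  rw [hφa, Polynomial.map_toSubring]

omit [Nonempty ι] in
theorem noeth_exists_pow {v : ι → Valuation E Γ₀} (hA : ∀ i, Arch (v i)) {c : E}
    (hc : ∀ i, v i c < 1) (y : E) : ∃ N : ℕ, ∀ N', N ≤ N' → ∀ i, v i (c ^ N' * y) ≤ 1 := by
  by_cases hy : y = 0
  · exact ⟨0, fun N' _ i => by rw [hy, mul_zero, map_zero]; exact zero_le⟩
  have hvy : ∀ i, v i y ≠ 0 := fun i => (Valuation.ne_zero_iff _).2 hy
  choose m hm using fun i => hA i c (hc i) (v i y)⁻¹ (inv_ne_zero (hvy i))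
  refine ⟨Finset.univ.sup m, fun N' hN' i => ?_⟩
  have h1 : m i ≤ N' := (Finset.le_sup (Finset.mem_univ i)).trans hN'
  have h2 : v i c ^ N' ≤ v i c ^ m i := pow_le_pow_right_of_le_one' (hc i).le h1
  rw [map_mul, map_pow]
  calc v i c ^ N' * v i y ≤ (v i y)⁻¹ * v i y := mul_le_mul' (h2.trans (hm i).le) le_rfl
    _ = 1 := inv_mul_cancel₀ (hvy i)

/-- every `w ≠ 0` is a quotient of two nonzero elements of `BuL`.
PROOF. `exists_mul_isInt (S.G o).inj β' hs w` gives `g ≠ 0` with `IsInt (g(u) w)`.  By `hA i` for each `i` (finitely many) choose `N` with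
`v i (ϖ^N g(u)) ≤ 1` and `v i (ϖ^N g(u) w) ≤ 1` for all `i` (`S.eqL`: `v i ϖ = v o ϖ < 1`).  `b := ϖ^N g(u)`, `a := b w`. -/
theorem exists_frac_BuL {v : ι → Valuation E Γ₀} {u : E} (S : Setup L v u) (o : ι)
    (hA : ∀ i, Arch (v i)) {d : ℕ} (β' : Fin d → E) (hs : Spans L u β')
    {ϖ : L} (hϖ0 : ϖ ≠ 0) (hϖ1 : v o (algebraMap L E ϖ) < 1) {w : E} (hw : w ≠ 0) :
    ∃ a b : BuL L v u, a ≠ 0 ∧ b ≠ 0 ∧ w * b = a := by
  obtain ⟨g, hg0, hg⟩ := exists_mul_isInt (S.G o).inj β' hs w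
  have hgu : aeval u g ≠ 0 := fun h => hg0 ((S.G o).inj g h)
  have hϖE : algebraMap L E ϖ ≠ 0 := by
    rwa [Ne, map_eq_zero_iff _ (algebraMap L E).injective]
  have hc : ∀ i, v i (algebraMap L E ϖ) < 1 := fun i => by rw [S.eqL i o]; exact hϖ1
  obtain ⟨N₁, hN₁⟩ := noeth_exists_pow hA hc (aeval u g)
  obtain ⟨N₂, hN₂⟩ := noeth_exists_pow hA hc (aeval u g * w)
  set N := max N₁ N₂ with hN
  have hb0 : algebraMap L E ϖ ^ N * aeval u g ≠ 0 := mul_ne_zero (pow_ne_zero _ hϖE) hgu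
  refine ⟨⟨algebraMap L E ϖ ^ N * (aeval u g * w),
      ((IsInt.algebraMap ϖ).pow N).mul hg, hN₂ N (le_max_right _ _)⟩,
    ⟨algebraMap L E ϖ ^ N * aeval u g, ((IsInt.algebraMap ϖ).pow N).mul (IsInt.aeval g),
      hN₁ N (le_max_left _ _)⟩, ?_, ?_, ?_⟩
  · intro h
    have h1 := congrArg Subtype.val h
    exact mul_ne_zero (pow_ne_zero _ hϖE) (mul_ne_zero hgu hw) h1
  · intro h
    exact hb0 (congrArg Subtype.val h)
  · show w * (algebraMap L E ϖ ^ N * aeval u g) = algebraMap L E ϖ ^ N * (aeval u g * w)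
    ring

/-- **hypothesis (FG) of `NS.ns_main` for the chart ring.**  (`NS.fg_of_noetherian` + the three lemmas above.) -/
theorem fg_Lam_BuL [CharZero L] {v : ι → Valuation E Γ₀} {u : E} (S : Setup L v u) (o : ι)
    (hA : ∀ i, Arch (v i)) {d : ℕ} (β' : Fin d → E) (hs : Spans L u β')
    (NB : ∃ γ : Γ₀, γ ≠ 0 ∧ ∀ (p : Fin d → L[X]) (l : Fin d),
      v o (aeval u (p l)) * γ ≤ NN v (comb L u p β'))
    {ϖ : L} (hϖ0 : ϖ ≠ 0) (hϖ1 : v o (algebraMap L E ϖ) < 1)
    (hϖ : ∀ a : L, v o (algebraMap L E a) < 1 → v o (algebraMap L E a) ≤ v o (algebraMap L E ϖ))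
    {n : ℕ} (hn : 0 < n) {w : E} (hw : w ≠ 0) :
    ∃ (r : ℕ) (g : Fin r → E), (∀ k, g k ∈ NS.Lam (BuL L v u) n w) ∧
      ∀ φ ∈ NS.Lam (BuL L v u) n w, ∃ c : Fin r → BuL L v u, φ = ∑ k, (c k : E) * g k := by
  have := isNoetherianRing_BuL S o (hA o) β' hs NB hϖ0 hϖ1 hϖ
  obtain ⟨a, b, ha, hb, hab⟩ := exists_frac_BuL S o hA β' hs hϖ0 hϖ1 hw
  exact NS.fg_of_noetherian (ic_BuL v u) hn ha hb hab

end Fermat.Agent.CAR.FG
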