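import Fermat.Agent.GAL.KL.Defs

/-!
# CAR / FG-1 : the ring of integers of a discrete rank one valuation is a PID;  FG-2 : a noetherianity criterion
(plain Mathlib)
-/

set_option autoImplicit false

namespace Fermat.Agent.CAR.FG

open Fermat.Agent.GAL

/-- every nonzero integral element has value `u ϖ ^ m`. -/
theorem pid_exists_pow {K Γ₀ : Type*} [Field K] [LinearOrderedCommGroupWithZero Γ₀]
    (u : Valuation K Γ₀) (hA : KL.Arch u) {ϖ : K} (h0 : ϖ ≠ 0) (h1 : u ϖ < 1)
    (hϖ : ∀ a : K, u a < 1 → u a ≤ u ϖ) {a : K} (ha0 : a ≠ 0) (ha : u a ≤ 1) :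
    ∃ m : ℕ, u a = u ϖ ^ m := by
  classical
  have hua : u a ≠ 0 := (Valuation.ne_zero_iff u).2 ha0
  have huϖ : u ϖ ≠ 0 := (Valuation.ne_zero_iff u).2 h0
  have hex : ∃ N : ℕ, u ϖ ^ N < u a := hA ϖ h1 (u a) hua
  have hN := Nat.find_spec hex
  have hmin := fun m => Nat.find_min hex (m := m)
  set N := Nat.find hex with hNdef
  obtain ⟨m, hm⟩ : ∃ m, N = m + 1 := by
    rcases Nat.eq_zero_or_pos N with h | h
    · rw [h, pow_zero] at hN
      exact absurd hN (not_lt.mpr ha)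
    · exact ⟨N - 1, by omega⟩
  refine ⟨m, ?_⟩
  have h2 : u a ≤ u ϖ ^ m := not_lt.mp (hmin m (by omega))
  have hpm : u ϖ ^ m ≠ 0 := pow_ne_zero m huϖ
  by_contra hne
  have hlt : u a < u ϖ ^ m := lt_of_le_of_ne h2 hne
  have h3 : u (a / ϖ ^ m) < 1 := by
    rw [map_div₀, map_pow]
    exact (div_lt_one₀ (zero_lt_iff.2 hpm)).2 hlt
  have h4 := hϖ _ h3
  rw [map_div₀, map_pow, div_le_iff₀ (zero_lt_iff.2 hpm), ← pow_succ'] at h4
  rw [hm] at hN
  exact absurd hN (not_lt.mpr h4)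

/-- PROOF. (a) every `a ≠ 0` with `u a ≤ 1` has `u a = u ϖ ^ m` for some `m`: by `hA` there is `m` with `u ϖ ^ (m+1) < u a`; take the
least such `m` (`Nat.find`); then `u ϖ ^ m ≥ u a` (or `m = 0`), so `x := a / ϖ^m` has `u ϖ < u x ≤ 1`, hence `u x = 1` by `hϖ`.
(b) let `I ≠ ⊥` be an ideal, `m` minimal such that `I` contains an element `a` of value `u ϖ ^ m` (`Nat.find`).  For `b ∈ I`,
`b ≠ 0`: `u b = u ϖ ^ m'`, `m' ≥ m`, so `u (b / a) ≤ 1` and `b = (b/a) a`: `I = (a)`. -/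
theorem isPrincipalIdealRing_integer {K Γ₀ : Type*} [Field K] [LinearOrderedCommGroupWithZero Γ₀]
    (u : Valuation K Γ₀) (hA : KL.Arch u) {ϖ : K} (h0 : ϖ ≠ 0) (h1 : u ϖ < 1)
    (hϖ : ∀ a : K, u a < 1 → u a ≤ u ϖ) : IsPrincipalIdealRing u.integer := by
  classical
  refine ⟨fun I => ?_⟩
  by_cases hI : I = ⊥
  · rw [hI]
    exact bot_isPrincipal
  obtain ⟨a, haI, ha0⟩ := Submodule.exists_mem_ne_zero_of_ne_bot hI
  have huϖ : u ϖ ≠ 0 := (Valuation.ne_zero_iff u).2 h0
  have hex : ∃ m : ℕ, ∃ b ∈ I, b ≠ 0 ∧ u (b : K) = u ϖ ^ m := by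
    obtain ⟨m, hm⟩ := pid_exists_pow u hA h0 h1 hϖ (a := (a : K))
      (fun h => ha0 (Subtype.ext h)) a.2
    exact ⟨m, a, haI, ha0, hm⟩
  obtain ⟨b, hbI, hb0, hb⟩ := Nat.find_spec hex
  have hmin := fun m => Nat.find_min hex (m := m)
  set m := Nat.find hex with hmdef
  have hb0' : (b : K) ≠ 0 := fun h => hb0 (Subtype.ext h)
  refine ⟨⟨b, le_antisymm ?_ ?_⟩⟩
  · intro c hc
    rw [Submodule.mem_span_singleton]
    by_cases hc0 : c = 0
    · exact ⟨0, by rw [hc0, zero_smul]⟩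
    have hc0' : (c : K) ≠ 0 := fun h => hc0 (Subtype.ext h)
    obtain ⟨m', hm'⟩ := pid_exists_pow u hA h0 h1 hϖ hc0' c.2
    have hmm : m ≤ m' := by
      by_contra hlt
      exact hmin m' (not_le.mp hlt) ⟨c, hc, hc0, hm'⟩
    have hle : u ((c : K) / b) ≤ 1 := by
      rw [map_div₀, hm', hb]
      exact (div_le_one₀ (zero_lt_iff.2 (pow_ne_zero m huϖ))).2
        (pow_le_pow_right_of_le_one' h1.le hmm)
    refine ⟨⟨(c : K) / b, hle⟩, Subtype.ext ?_⟩
    show (c : K) / b * b = c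
    exact div_mul_cancel₀ _ hb0'
  · rw [Submodule.span_singleton_le_iff_mem]
    exact hbI

/-- a ring `B` between a noetherian ring `A₀` and a finitely generated `A₀`-submodule of an overfield is noetherian.
PROOF. `F` is an `A₀`-module; `M := Submodule.span A₀ (Set.range ε)` is a noetherian `A₀`-module
(`isNoetherian_span_of_finite`).  For an ideal `J` of `B` the set `J' := {(z : F) | z ∈ J}` is an `A₀`-submodule of `F` contained in
`M`, hence finitely generated over `A₀` (`isNoetherian_submodule`/`IsNoetherian.noetherian` for the submodule of `M`); its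
generators lie in `J` and generate `J` over `B` because `A₀ ≤ B`.  (`isNoetherianRing_iff_ideal_fg`.) -/
theorem isNoetherianRing_of_le_span {F : Type*} [Field F] (A₀ B : Subring F) [IsNoetherianRing A₀]
    (hAB : A₀ ≤ B) {d : ℕ} (ε : Fin d → F)
    (h : ∀ z ∈ B, ∃ c : Fin d → A₀, z = ∑ l, (c l : F) * ε l) : IsNoetherianRing B := by
  let _ : Algebra A₀ B := (Subring.inclusion hAB).toAlgebra
  have hN : IsNoetherian A₀ (Submodule.span A₀ (Set.range ε)) :=
    isNoetherian_span_of_finite A₀ (Set.finite_range ε)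
  let j : B →ₗ[A₀] F :=
    { toFun := fun z => (z : F)
      map_add' := fun _ _ => rfl
      map_smul' := fun _ _ => rfl }
  have hj : ∀ z : B, j z ∈ Submodule.span A₀ (Set.range ε) := by
    intro z
    obtain ⟨c, hc⟩ := h z z.2
    show (z : F) ∈ _
    rw [hc]
    refine Submodule.sum_mem _ fun l _ => ?_
    exact Submodule.smul_mem _ (c l) (Submodule.subset_span ⟨l, rfl⟩)
  have hinj : Function.Injective (j.codRestrict _ hj) := by
    intro a b hab
    have h1 : ((j.codRestrict _ hj a : Submodule.span A₀ (Set.range ε)) : F)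
        = ((j.codRestrict _ hj b : Submodule.span A₀ (Set.range ε)) : F) := by rw [hab]
    exact Subtype.ext h1
  have hB : IsNoetherian A₀ B := isNoetherian_of_injective (j.codRestrict _ hj) hinj
  exact isNoetherian_of_tower A₀ hB

end Fermat.Agent.CAR.FG
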